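/-
S48 (Deligne–Serre), brick C, insurance route to (C★): integral structure and conjugation of
cusp forms on `Γ₀(N)` in EVERY weight, from the landed S23 chain (which is weight-generic).

* `hasIntegralStructure N k` : `CuspForm.HasIntegralStructure N k` for all `k : ℤ`.
* `exists_int_combination`   : every cusp form is a finite `ℂ`-combination of integral forms.
* `exists_conj`              : for a ring hom `τ : ℂ →+* ℂ`, the coefficientwise conjugate of a
  `q`-expansion of a cusp form is the `q`-expansion of a cusp form.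
* `exists_finset_span`       : the `q`-coefficients of a cusp form lie in a f.g. `ℤ`-module.
-/
import Mathlib
import Fermat.Agent.S23.Wiring
import Fermat.Agent.S23.Fraction
import Fermat.Agent.S23.NormPoly
import Fermat.Agent.S23.Integrality
import Fermat.Agent.S23.LevelOneSpan

set_option autoImplicit false

namespace Fermat.Agent.S48.IntX

open UpperHalfPlane CongruenceSubgroup
open scoped MatrixGroups

/-- The integral structure of `S_k(Γ₀(N))`, every weight (landed S23 chain). -/
theorem hasIntegralStructure (N : ℕ) [NeZero N] (k : ℤ) : CuspForm.HasIntegralStructure N k :=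
  Fermat.Agent.S23.Wiring.hasIntegralStructure_of_parts N k
    (fun f => Fermat.Agent.S23.Fraction.exists_fraction N k f)
    (fun f => Fermat.Agent.S23.exists_norm_polynomial N f)
    (fun K g => Fermat.Agent.S23.LevelOneSpan.cusp_mem_span K g)
    (fun P Q hQ n c h => Fermat.Agent.S23.Integrality.integrality_criterion N P Q hQ n c h)

/-- Every cusp form on `Γ₀(N)` is a finite complex combination of forms with integral
`q`-expansion. -/
theorem exists_int_combination (N : ℕ) [NeZero N] (k : ℤ) (f : CuspForm (Gamma0 N) k) :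
    ∃ (r : ℕ) (c : Fin r → ℂ) (g : Fin r → CuspForm (Gamma0 N) k),
      (∀ i n, ∃ m : ℤ, (qExpansion 1 (g i)).coeff n = (m : ℂ)) ∧ f = ∑ i, c i • g i := by
  have h := hasIntegralStructure N k
  rw [CuspForm.HasIntegralStructure, CuspForm.intLattice, Submodule.span_span_of_tower] at h
  have hf : f ∈ Submodule.span ℂ
      {f : CuspForm (Gamma0 N) k | ∀ n : ℕ, ∃ m : ℤ, ModularFormClass.qCoeff f n = (m : ℂ)} := by
    rw [h]; trivial
  obtain ⟨r, c, g, hg⟩ := Submodule.mem_span_set'.mp hf
  exact ⟨r, c, fun i => (g i : CuspForm (Gamma0 N) k), fun i n => (g i).2 n, hg.symm⟩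

/-- `q`-expansion of a finite combination. -/
theorem qExpansion_sum_smul (N : ℕ) [NeZero N] (k : ℤ) {r : ℕ} (c : Fin r → ℂ)
    (g : Fin r → CuspForm (Gamma0 N) k) :
    qExpansion 1 (∑ i, c i • g i : CuspForm (Gamma0 N) k) = ∑ i, c i • qExpansion 1 (g i) := by
  have := map_sum (Fermat.Agent.S23.Endgame.qExpLin N k) (fun i => c i • g i) Finset.univ
  simp only [Fermat.Agent.S23.Endgame.qExpLin_apply, map_smul] at this
  exact this

/-- **Conjugation of cusp forms on `Γ₀(N)`.** -/
theorem exists_conj (N : ℕ) [NeZero N] (k : ℤ) (τ : ℂ →+* ℂ) (f : CuspForm (Gamma0 N) k) :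
    ∃ f' : CuspForm (Gamma0 N) k, qExpansion 1 f' = PowerSeries.map τ (qExpansion 1 f) := by
  obtain ⟨r, c, g, hg, rfl⟩ := exists_int_combination N k f
  refine ⟨∑ i, τ (c i) • g i, ?_⟩
  rw [qExpansion_sum_smul, qExpansion_sum_smul]
  ext n
  simp only [map_sum, PowerSeries.coeff_map, PowerSeries.coeff_smul]
  refine Finset.sum_congr rfl fun i _ => ?_
  obtain ⟨m, hm⟩ := hg i n
  rw [hm]
  simp

/-- **The `q`-coefficients of a cusp form on `Γ₀(N)` lie in a finitely generated `ℤ`-module.** -/
theorem exists_finset_span (N : ℕ) [NeZero N] (k : ℤ) (f : CuspForm (Gamma0 N) k) :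
    ∃ S : Finset ℂ, ∀ n : ℕ, (qExpansion 1 f).coeff n ∈ Submodule.span ℤ (S : Set ℂ) := by
  classical
  obtain ⟨r, c, g, hg, rfl⟩ := exists_int_combination N k f
  refine ⟨Finset.univ.image c, fun n => ?_⟩
  rw [qExpansion_sum_smul]
  simp only [map_sum, PowerSeries.coeff_smul]
  refine Submodule.sum_mem _ fun i _ => ?_
  obtain ⟨m, hm⟩ := hg i n
  rw [hm, smul_eq_mul, mul_comm, ← zsmul_eq_mul]
  exact Submodule.smul_mem _ _ (Submodule.subset_span (by simp))

end Fermat.Agent.S48.IntX
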