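/-
S48 (Deligne–Serre), brick C, insurance route to (C★): the root of a cusp form, general weights.

`E ≢ 0` holomorphic of weight `w`, slash-invariant, bounded at `i∞`; `P` a cusp form of weight
`k + w`, `Q` a cusp form of weight `k * n`; `Φ` a formal power series with
`qExp P = Φ * qExp E`, `qExp Q = Φ ^ n`.  Then `Φ` is the `q`-expansion of a cusp form of weight
`k` (namely `P / E`).  Same proof as `S48/PowRoot.exists_cuspForm_of_pow_aux`.
-/
import Mathlib
import Fermat.Agent.S48.PowRoot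

set_option autoImplicit false

namespace Fermat.Agent.S48.IntX

open Filter Topology Set UpperHalfPlane ModularForm Fermat.Agent.S48.PowRoot
open scoped MatrixGroups Manifold

variable {Γ : Subgroup (GL (Fin 2) ℝ)}

/-- **The root of a cusp form**, general weights. -/
theorem exists_cuspForm_of_pow_gen [Γ.HasDetOne] (hΓ : (1 : ℝ) ∈ Γ.strictPeriods)
    {n : ℕ} (hn : 0 < n) (k w : ℤ)
    (E : SlashInvariantForm Γ w) (hEhol : MDiff (E : ℍ → ℂ))
    (hEbdd : IsBoundedAtImInfty (E : ℍ → ℂ)) (hE : (E : ℍ → ℂ) ≠ 0)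
    (P : CuspForm Γ (k + w)) (Q : CuspForm Γ (k * n)) (Φ : PowerSeries ℂ)
    (hP : qExpansion 1 P = Φ * qExpansion 1 E) (hQ : qExpansion 1 Q = Φ ^ n) :
    ∃ h : CuspForm Γ k, qExpansion 1 h = Φ ∧ (∀ τ, h τ * E τ = P τ) ∧ ∀ τ, h τ ^ n = Q τ := by
  have hEn : Nice (E : ℍ → ℂ) :=
    ⟨SlashInvariantFormClass.periodic_comp_ofComplex E hΓ, hEhol, hEbdd⟩
  have hPn : Nice (P : ℍ → ℂ) := nice_of_modularFormClass hΓ P
  have hQn : Nice (Q : ℍ → ℂ) := nice_of_modularFormClass hΓ Q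
  have hrel : (P : ℍ → ℂ) ^ n = (Q : ℍ → ℂ) * (E : ℍ → ℂ) ^ n := by
    apply (hPn.pow n).eq_of_qExp_eq (hQn.mul (hEn.pow n))
    rw [hPn.qExp_pow, hQn.qExp_mul (hEn.pow n), hEn.qExp_pow, hP, hQ, mul_pow]
  have hE0 : ∃ τ, E τ ≠ 0 := by
    by_contra hcon
    push Not at hcon
    exact hE (funext hcon)
  obtain ⟨hc, hcan, hcE, hcQ⟩ := exists_root_analytic (P := (P : ℍ → ℂ) ∘ ofComplex)
    (E := (E : ℍ → ℂ) ∘ ofComplex) (Q := (Q : ℍ → ℂ) ∘ ofComplex) hn isOpen_upperHalfPlaneSet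
    isPreconnected_upper (analyticOnNhd_comp_ofComplex hPn.hol)
    (analyticOnNhd_comp_ofComplex hEn.hol) (analyticOnNhd_comp_ofComplex hQn.hol)
    (by obtain ⟨τ0, hτ0⟩ := hE0; exact ⟨(τ0 : ℂ), τ0.im_pos, by simpa using hτ0⟩)
    (fun z _ => by have := congrFun hrel (ofComplex z); simpa using this)
  set h : ℍ → ℂ := fun τ => hc (τ : ℂ) with hh
  have hhol : MDiff h := by
    rw [UpperHalfPlane.mdifferentiable_iff]
    refine hcan.differentiableOn.congr fun z hz => ?_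
    simp [hh, ofComplex_apply_of_im_pos hz]
  have hmul : ∀ τ : ℍ, h τ * E τ = P τ := fun τ => by
    have := hcE (τ : ℂ) τ.im_pos
    simpa [hh] using this
  have hpow : ∀ τ : ℍ, h τ ^ n = Q τ := fun τ => by
    have := hcQ (τ : ℂ) τ.im_pos
    simpa [hh] using this
  have hslash : ∀ γ ∈ Γ, h ∣[k] γ = h := by
    intro γ hγ
    have h1 : (P : ℍ → ℂ) = h * (E : ℍ → ℂ) := funext fun τ => (hmul τ).symm
    have h2 : (P : ℍ → ℂ) ∣[k + w] γ = P := SlashInvariantFormClass.slash_action_eq P γ hγ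
    have h3 : (E : ℍ → ℂ) ∣[w] γ = E := SlashInvariantFormClass.slash_action_eq E γ hγ
    have h4 := mul_slash k w γ h (E : ℍ → ℂ)
    have hdet : |(γ.det : ℝ)| = 1 := by
      rw [Subgroup.HasDetOne.det_eq hγ]; simp
    rw [hdet, one_smul, h3, ← h1, h2] at h4
    refine eq_of_mul_eq (hhol.slash k γ) hhol hEn.hol hE0 fun τ => ?_
    have := congrFun h4 τ
    rw [Pi.mul_apply] at this
    rw [← this, hmul]
  have hcusp : ∀ {c : OnePoint ℝ}, IsCusp c Γ → c.IsZeroAt h k := by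
    intro c hc g hg
    have hQz : IsZeroAtImInfty ((Q : ℍ → ℂ) ∣[k * (n : ℤ)] g) := Q.zero_at_cusps' hc g hg
    have hQh : (Q : ℍ → ℂ) = ∏ _i ∈ Finset.range n, h := by
      rw [Finset.prod_const, Finset.card_range]
      exact funext fun τ => (hpow τ).symm
    have hps := prod_slash (k := k) (g := g) (f := fun _ : ℕ => h) (s := Finset.range n)
    rw [Finset.card_range, ← hQh, Finset.prod_const, Finset.card_range] at hps
    apply isZeroAtImInfty_of_pow (n := n)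
    have hgd : (|g.det.val| : ℝ) ^ ((n : ℤ) - 1) ≠ 0 :=
      zpow_ne_zero _ (abs_ne_zero.mpr (Matrix.GeneralLinearGroup.det_ne_zero g))
    have hps' : (h ∣[k] g) ^ n
        = ((|g.det.val| : ℝ) ^ ((n : ℤ) - 1))⁻¹ • ((Q : ℍ → ℂ) ∣[k * (n : ℤ)] g) := by
      rw [hps, smul_smul, inv_mul_cancel₀ hgd, one_smul]
    rw [hps']
    exact hQz.smul _
  let hcf : CuspForm Γ k :=
    { toFun := h
      slash_action_eq' := hslash
      holo' := hhol
      zero_at_cusps' := hcusp }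
  refine ⟨hcf, ?_, hmul, hpow⟩
  have hhn : Nice h := nice_of_modularFormClass hΓ hcf
  change qExpansion 1 h = Φ
  have hq : qExpansion 1 h * qExpansion 1 (E : ℍ → ℂ) = Φ * qExpansion 1 (E : ℍ → ℂ) := by
    rw [← hhn.qExp_mul hEn, ← hP]
    congr 1
    funext τ
    exact hmul τ
  have hEq : qExpansion 1 (E : ℍ → ℂ) ≠ 0 := fun h0 => hE (hEn.eq_zero h0)
  exact mul_right_cancel₀ hEq hq

end Fermat.Agent.S48.IntX
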